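import Fermat.Prelude.Def_CuspForm_IntegralLattice
import Fermat.Prelude.Def_CuspForm_IntegralStructure
import Fermat.Prelude.Def_FormalHecke_Eigensystem
import Fermat.Prelude.Def_ModularForm_EisensteinChiNegThree

/-!
# Eigensystems modulo `3` and their lifts

The Eisenstein series of weight one with character `χ₋₃` is `1` modulo `3`, multiplicative
sequences are determined by their values at primes through the Hecke recursion, and an
eigen-expansion modulo `3` realised by an integral form of weight two gives the data of weight one.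
-/

set_option autoImplicit false

open EisensteinWeightOne CongruenceSubgroup ModularFormClass

namespace Fermat.Agent.LTReduce

/-- The weight-one Eisenstein series with character `χ₋₃` is `1` modulo `3`. -/
theorem e1Chi3In_map_zmod3 :
    PowerSeries.map (Int.castRingHom (ZMod 3)) (e1Chi3In ℤ) = 1 := by
  have h6 : (6 : ZMod 3) = 0 := by decide
  ext n
  simp only [e1Chi3In, e1Chi3, PowerSeries.coeff_map, PowerSeries.coeff_mk,
    PowerSeries.coeff_one]
  split_ifs <;> simp [h6]

/-- `bridgeProduct a` is congruent to `a` coefficientwise modulo `3`. -/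
theorem coeff_bridgeProduct_modEq (a : ℕ → ℤ) (n : ℕ) :
    (((bridgeProduct a).coeff n : ℤ) : ZMod 3) = (a n : ZMod 3) := by
  have h : PowerSeries.map (Int.castRingHom (ZMod 3)) (bridgeProduct a) =
      PowerSeries.map (Int.castRingHom (ZMod 3)) (PowerSeries.mk a) := by
    rw [bridgeProduct, map_mul, e1Chi3In_map_zmod3, mul_one]
  have := congrArg (PowerSeries.coeff n) h
  simpa using this

/-- `IsLatticeRealized` only depends on `a` modulo `3`: it says that some integral weight-two
cusp form has coefficients congruent to `a`. -/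
theorem isLatticeRealized_iff (N : ℕ) (a : ℕ → ℤ) :
    CuspForm.IsLatticeRealized N a ↔
      ∃ f : CuspForm (Gamma0 N) 2, ∀ n : ℕ,
        ∃ m : ℤ, qCoeff f n = (m : ℂ) ∧ (m : ZMod 3) = (a n : ZMod 3) := by
  constructor
  · rintro ⟨f, -, af, haf, h3⟩
    refine ⟨f, fun n => ⟨af n, (haf n).symm, ?_⟩⟩
    rw [← coeff_bridgeProduct_modEq a n]
    rw [ZMod.intCast_eq_intCast_iff_dvd_sub, ← dvd_neg, neg_sub]
    exact_mod_cast h3 n
  · rintro ⟨f, hf⟩
    choose af haf h3 using hf
    refine ⟨f, fun n => ?_, af, fun n => (haf n).symm, fun n => ?_⟩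
    · rw [haf n]
      exact intCast_mem _ _
    · have := h3 n
      rw [← coeff_bridgeProduct_modEq a n, ZMod.intCast_eq_intCast_iff_dvd_sub, ← dvd_neg,
        neg_sub] at this
      exact_mod_cast this

variable {R : Type*} [CommRing R]

/-- The sequence `1, c, c² - e, …` of the recursion `x_{r+2} = c x_{r+1} - e x_r`. -/
def heckeSeq (e c : R) : ℕ → R
  | 0 => 1
  | 1 => c
  | r + 2 => c * heckeSeq e c (r + 1) - e * heckeSeq e c r

/-- The multiplicative sequence with prescribed values at primes satisfying the formal Hecke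
recursion for `e`. -/
def ofPrimes (e c : ℕ → R) (n : ℕ) : R :=
  if n = 0 then 0 else ∏ p ∈ n.primeFactors, heckeSeq (e p) (c p) (n.factorization p)

theorem ofPrimes_eq_finsupp_prod (e c : ℕ → R) {n : ℕ} (hn : n ≠ 0) :
    ofPrimes e c n = n.factorization.prod (fun p r => heckeSeq (e p) (c p) r) := by
  rw [ofPrimes, if_neg hn, Finsupp.prod, Nat.support_factorization]

/-- `ofPrimes` vanishes at zero. -/
theorem ofPrimes_zero (e c : ℕ → R) : ofPrimes e c 0 = 0 := if_pos rfl

theorem ofPrimes_one (e c : ℕ → R) : ofPrimes e c 1 = 1 := by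
  simp [ofPrimes]

theorem ofPrimes_prime_pow_mul (e c : ℕ → R) {p m : ℕ} (hp : p.Prime) (hm : m ≠ 0)
    (hpm : ¬ p ∣ m) (r : ℕ) :
    ofPrimes e c (p ^ r * m) = heckeSeq (e p) (c p) r * ofPrimes e c m := by
  have hcop : Nat.Coprime (p ^ r) m := (Nat.Coprime.pow_left r ((hp.coprime_iff_not_dvd).2 hpm))
  have hpr : p ^ r ≠ 0 := pow_ne_zero _ hp.ne_zero
  rw [ofPrimes_eq_finsupp_prod e c (mul_ne_zero hpr hm), ofPrimes_eq_finsupp_prod e c hm,
    Nat.factorization_mul hpr hm, Finsupp.prod_add_index_of_disjoint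
      hcop.disjoint_primeFactors, hp.factorization_pow,
    Finsupp.prod_single_index]
  rfl

/-- `ofPrimes` has the prescribed values at primes. -/
theorem ofPrimes_prime (e c : ℕ → R) {p : ℕ} (hp : p.Prime) : ofPrimes e c p = c p := by
  have := ofPrimes_prime_pow_mul e c hp one_ne_zero hp.not_dvd_one 1
  simpa [ofPrimes_one, heckeSeq] using this

/-- Multiplicative sequences satisfy the formal Hecke relations. -/
theorem isEigensystem_ofPrimes (e c : ℕ → R) :
    FormalHecke.IsEigensystem e (ofPrimes e c) := by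
  refine ⟨ofPrimes_one e c, fun p hp n => ?_⟩
  rw [ofPrimes_prime e c hp]
  rcases eq_or_ne n 0 with rfl | hn
  · simp [ofPrimes_zero]
  obtain ⟨r, m, hpm, rfl⟩ := Nat.exists_eq_pow_mul_and_not_dvd hn p hp.one_lt.ne'
  have hm : m ≠ 0 := (mul_ne_zero_iff.1 hn).2
  rw [show p * (p ^ r * m) = p ^ (r + 1) * m by ring,
    ofPrimes_prime_pow_mul e c hp hm hpm, ofPrimes_prime_pow_mul e c hp hm hpm]
  rcases r with _ | s
  · simp [hpm, heckeSeq]
  · have hd : p ∣ p ^ (s + 1) * m := Dvd.dvd.mul_right (dvd_pow_self p (Nat.succ_ne_zero s)) m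
    have hq : p ^ (s + 1) * m / p = p ^ s * m := by
      rw [show p ^ (s + 1) * m = p * (p ^ s * m) by ring, Nat.mul_div_cancel_left _ hp.pos]
    rw [if_pos hd, hq, ofPrimes_prime_pow_mul e c hp hm hpm]
    simp only [heckeSeq]
    ring

theorem ofPrimes_map {S : Type*} [CommRing S] (φ : R →+* S) (e c : ℕ → R) (n : ℕ) :
    φ (ofPrimes e c n) = ofPrimes (fun p => φ (e p)) (fun p => φ (c p)) n := by
  have key : ∀ (x y : R) (r : ℕ), φ (heckeSeq x y r) = heckeSeq (φ x) (φ y) r := by
    intro x y r
    induction r using Nat.twoStepInduction with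
    | zero => simp [heckeSeq]
    | one => simp [heckeSeq]
    | more k h0 h1 => simp [heckeSeq, h0, h1]
  simp only [ofPrimes]
  split_ifs with h
  · simp
  · simp [map_prod, key]

/-- An eigensystem vanishing at `0` is determined by its prime values. -/
theorem eq_ofPrimes {e a : ℕ → R} (ha : FormalHecke.IsEigensystem e a) (h0 : a 0 = 0) (n : ℕ) :
    a n = ofPrimes e a n := by
  induction n using Nat.strong_induction_on with
  | _ n ih =>
    rcases eq_or_ne n 0 with rfl | hn
    · rw [h0, ofPrimes_zero]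
    rcases eq_or_ne n 1 with rfl | hn1
    · rw [ha.1, ofPrimes_one]
    obtain ⟨p, hp, ⟨m, rfl⟩⟩ := Nat.exists_prime_and_dvd hn1
    have hm : m ≠ 0 := (mul_ne_zero_iff.1 hn).2
    have hlt : m < p * m := lt_mul_of_one_lt_left (Nat.pos_of_ne_zero hm) hp.one_lt
    have hdiv : m / p < p * m := (Nat.div_le_self m p).trans_lt hlt
    have h1 := ha.2 p hp m
    have h2 := (isEigensystem_ofPrimes e a).2 p hp m
    rw [ofPrimes_prime e a hp, ← ih m hlt] at h2
    rw [← ih (m / p) hdiv] at h2
    exact add_right_cancel (h1.trans h2.symm)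

/-- An integral structure gives an integral basis. -/
theorem hasIntegralBasis_of_hasIntegralStructure {N : ℕ}
    (h : CuspForm.HasIntegralStructure N 2) : CuspForm.HasIntegralBasis N := by
  refine top_unique (le_of_eq_of_le h.symm (Submodule.span_le.2 ?_))
  intro g hg
  refine Submodule.span_induction ?_ (zero_mem _) (fun _ _ _ _ => add_mem)
    (fun z x _ hx => ?_) hg
  · intro f hf
    refine Submodule.subset_span fun n => ?_
    obtain ⟨m, hm⟩ := hf n
    rw [hm]
    exact intCast_mem _ _
  · exact zsmul_mem hx z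

/-- `χ₋₃ ℓ ≡ ℓ` modulo `3`: the two Hecke recursions agree modulo `3`. -/
theorem chiNegThree_zmod3 (n : ℕ) : ((chiNegThree n : ℤ) : ZMod 3) = (n : ZMod 3) := by
  have h : n % 3 = 0 ∨ n % 3 = 1 ∨ n % 3 = 2 := by omega
  rw [← ZMod.natCast_mod n 3]
  rcases h with h | h | h <;> (simp [chiNegThree, h]; try decide)

/-- A normalised weight-two eigen-expansion modulo `3` that is realised by an integral cusp form
lifts to an integral eigensystem for the recursion twisted by `χ₋₃`. -/
theorem exists_eigensystem_of_zmod3 {N : ℕ} (b : ℕ → ZMod 3) (hb0 : b 0 = 0)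
    (hb : FormalHecke.IsEigensystem (fun ℓ => if ℓ ∣ N then 0 else (ℓ : ZMod 3)) b)
    (f : CuspForm (Gamma0 N) 2)
    (hf : ∀ n, ∃ m : ℤ, qCoeff f n = (m : ℂ) ∧ (m : ZMod 3) = b n) :
    ∃ a : ℕ → ℤ,
      FormalHecke.IsEigensystem
        (fun ℓ => if ℓ ∣ N then 0 else ((chiNegThree ℓ : ℤ) : ℤ)) a ∧
      CuspForm.IsLatticeRealized N a ∧ ∀ n, (a n : ZMod 3) = b n := by
  choose m hm hmb using hf
  have key : ∀ n, (Int.castRingHom (ZMod 3))
      (ofPrimes (fun ℓ => if ℓ ∣ N then 0 else ((chiNegThree ℓ : ℤ) : ℤ)) m n) = b n := by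
    intro n
    rw [ofPrimes_map, eq_ofPrimes hb hb0 n]
    congr 1
    · funext p
      split_ifs <;> simp [chiNegThree_zmod3]
    · funext p
      simp [hmb p]
  exact ⟨_, isEigensystem_ofPrimes _ m,
    (isLatticeRealized_iff N _).2 ⟨f, fun n => ⟨m n, hm n, (hmb n).trans (key n).symm⟩⟩, key⟩

end Fermat.Agent.LTReduce
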