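import Fermat.Prelude.Def_FLTPrelim_ModularRep
import Fermat.Agent.LTReduce.Basic

/-!
# Weight-one data from an eigen-expansion modulo `3`

A Hecke eigen-expansion modulo `3` of weight two attached to a curve, of level cube-free away from
`3`, yields the integral data of weight one, given the integral structure of cusp forms.
-/

set_option autoImplicit false

open CongruenceSubgroup ModularFormClass

namespace Fermat.Agent.LTReduce

/-- A mod-3 Hecke eigen-expansion of weight two and of level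
cube-free away from `3`, attached to `W`. -/
def HasModThreeEigenExpansion (W : WeierstrassCurve ℤ) : Prop :=
  ∃ (N : ℕ) (_ : NeZero N) (b : ℕ → ZMod 3) (f : CuspForm (Gamma0 N) 2),
    (∀ q : ℕ, q.Prime → q ≠ 3 → ¬ q ^ 3 ∣ N) ∧ b 0 = 0 ∧
    FormalHecke.IsEigensystem (fun ℓ => if ℓ ∣ N then 0 else (ℓ : ZMod 3)) b ∧
    (∀ n, ∃ m : ℤ, qCoeff f n = (m : ℂ) ∧ (m : ZMod 3) = b n) ∧
    ∀ ℓ : ℕ, ℓ.Prime → W.IsGoodPrimeFor ℓ → ¬ ℓ ∣ N → ℓ ≠ 3 →
      b ℓ = (W.apOfModel ℓ : ZMod 3)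

/-- The weight-one data of a curve follow from `HasModThreeEigenExpansion` and the integral
structure of weight-two cusp forms. -/
theorem weightOneData_of_modThreeEigenExpansion
    (hint : ∀ N : ℕ, [NeZero N] → CuspForm.HasIntegralStructure N 2)
    {W : WeierstrassCurve ℤ} (h : HasModThreeEigenExpansion W) :
    ∃ (N : ℕ) (_ : NeZero N) (a : ℕ → ℤ),
      CuspForm.HasIntegralBasis N ∧
      FormalHecke.IsEigensystem
        (fun ℓ => if ℓ ∣ N then 0 else ((EisensteinWeightOne.chiNegThree ℓ : ℤ) : ℤ)) a ∧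
      CuspForm.IsLatticeRealized N a ∧
      (∀ q : ℕ, q.Prime → q ≠ 3 → ¬ q ^ 3 ∣ N) ∧
      ∀ ℓ : ℕ, ℓ.Prime → W.IsGoodPrimeFor ℓ → ¬ ℓ ∣ N → ℓ ≠ 3 →
        (3 : ℤ) ∣ (a ℓ - W.apOfModel ℓ) := by
  obtain ⟨N, hN, b, f, hcube, hb0, hb, hf, hap⟩ := h
  obtain ⟨a, ha, hreal, hab⟩ := exists_eigensystem_of_zmod3 b hb0 hb f hf
  refine ⟨N, hN, a, hasIntegralBasis_of_hasIntegralStructure (hint N), ha, hreal, hcube,
    fun ℓ hℓ hgood hℓN h3 => ?_⟩
  have hc : (W.apOfModel ℓ : ZMod 3) = (a ℓ : ZMod 3) := by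
    rw [hab, hap ℓ hℓ hgood hℓN h3]
  exact_mod_cast (ZMod.intCast_eq_intCast_iff_dvd_sub _ _ 3).1 hc

end Fermat.Agent.LTReduce
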