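import Fermat.Agent.Newforms.Forms
import Fermat.Agent.LTReduce.S46Reduction
import Fermat.Prelude.Def_WeierstrassCurve_Mlc1RowStatement
import Mathlib.RingTheory.UniqueFactorizationDomain.Nat

/-!
# The good part of the eigenform of a semistable curve

Removing from an eigenform of squarefree level `N` the coefficients not prime to `N` gives a form
of cube-free level whose coefficients are integers generated by the traces at good primes.
-/

set_option autoImplicit false

noncomputable section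

open CongruenceSubgroup ModularFormClass
open Fermat.Agent.Newforms

namespace Fermat.Agent.LTReduce

open Fermat.Agent.HeckeLift (qCoeff_smul qCoeff_sub qCoeff_at_zero)

/-- If `c (q m) = α c m`, the coefficients at multiples of `q` can be removed at level `q L`. -/
theorem exists_remove_prime {L q : ℕ} [NeZero L] [NeZero q] (α : ℂ)
    (F : CuspForm (Gamma0 L) 2) (hF : ∀ m, qCoeff ⇑F (q * m) = α * qCoeff ⇑F m) :
    ∃ G : CuspForm (Gamma0 (q * L)) 2,
      ∀ n, qCoeff ⇑G n = if q ∣ n then 0 else qCoeff ⇑F n := by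
  have : NeZero (q * L) := ⟨mul_ne_zero (NeZero.ne q) (NeZero.ne L)⟩
  refine ⟨raise (q * L) (dvd_mul_left L q) F - (α / q) • degen q F, fun n => ?_⟩
  rw [qCoeff_sub, qCoeff_smul, qCoeff_degen, coe_raise]
  split_ifs with h
  · obtain ⟨m, rfl⟩ := h
    rw [Nat.mul_div_cancel_left _ (Nat.pos_of_ne_zero (NeZero.ne q)), hF,
      show (2 : ℤ) - 1 = 1 from rfl, zpow_one]
    field_simp [Nat.cast_ne_zero.2 (NeZero.ne q)]
    ring
  · ring

variable {N : ℕ} [NeZero N] {f : CuspForm (Gamma0 N) 2}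

theorem exists_remove_primes (hf : f.IsNormalizedEigenform) (s : Finset ℕ)
    (hs : s ⊆ N.primeFactors) :
    ∃ L, L = (∏ q ∈ s, q) * N ∧ ∃ G : CuspForm (Gamma0 L) 2,
      ∀ n, qCoeff ⇑G n = if ∃ q ∈ s, q ∣ n then 0 else qCoeff ⇑f n := by
  classical
  induction s using Finset.induction with
  | empty => exact ⟨N, by simp, f, fun n => by simp⟩
  | insert q s hq ih =>
    rw [Finset.insert_subset_iff] at hs
    obtain ⟨L, rfl, G, hG⟩ := ih hs.2
    obtain ⟨hqp, hqN, -⟩ := Nat.mem_primeFactors.1 hs.1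
    have : NeZero q := ⟨hqp.ne_zero⟩
    have : NeZero ((∏ r ∈ s, r) * N) :=
      ⟨mul_ne_zero (Finset.prod_ne_zero_iff.2 fun r hr =>
        (Nat.mem_primeFactors.1 (hs.2 hr)).1.ne_zero) (NeZero.ne N)⟩
    obtain ⟨H, hH⟩ := exists_remove_prime (L := (∏ r ∈ s, r) * N) (q := q) (qCoeff ⇑f q) G
      fun m => by
        have e : (∃ r ∈ s, r ∣ q * m) ↔ ∃ r ∈ s, r ∣ m := by
          constructor
          · rintro ⟨r, hr, hd⟩
            have hrp := (Nat.mem_primeFactors.1 (hs.2 hr)).1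
            exact ⟨r, hr, (hrp.dvd_mul.1 hd).resolve_left fun h =>
              hq ((Nat.prime_dvd_prime_iff_eq hrp hqp).1 h ▸ hr)⟩
          · rintro ⟨r, hr, hd⟩
            exact ⟨r, hr, hd.mul_left q⟩
        rw [hG, hG, if_congr e rfl rfl]
        split_ifs
        · ring
        · rw [qCoeff_prime_mul hf hqp, if_neg fun h => h.1 hqN, add_zero, mul_comm m q]
    refine ⟨q * ((∏ r ∈ s, r) * N), by rw [Finset.prod_insert hq, mul_assoc], H, fun n => ?_⟩
    rw [hH, hG]
    by_cases h : q ∣ n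
    · rw [if_pos h, if_pos ⟨q, Finset.mem_insert_self _ _, h⟩]
    · rw [if_neg h]
      exact if_congr ⟨fun ⟨r, hr, hd⟩ => ⟨r, Finset.mem_insert_of_mem hr, hd⟩, fun ⟨r, hr, hd⟩ =>
        ⟨r, (Finset.mem_insert.1 hr).resolve_left fun e => h (e ▸ hd), hd⟩⟩ rfl rfl

/-- The coefficients prime to the level are integers. -/
theorem qCoeff_mem_int (hf : f.IsNormalizedEigenform)
    (hp : ∀ p : ℕ, p.Prime → ¬ p ∣ N → ∃ a : ℤ, qCoeff ⇑f p = (a : ℂ)) :
    ∀ n : ℕ, n.Coprime N → ∃ a : ℤ, qCoeff ⇑f n = (a : ℂ) := by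
  intro n
  induction n using Nat.strong_induction_on with
  | _ n ih =>
    intro hn
    rcases eq_or_ne n 0 with rfl | hn0
    · exact ⟨0, by simp [qCoeff_at_zero]⟩
    rcases eq_or_ne n 1 with rfl | hn1
    · exact ⟨1, by simp [hf.qCoeff_one]⟩
    obtain ⟨p, hpp, m, rfl⟩ := Nat.exists_prime_and_dvd hn1
    have hpN : ¬ p ∣ N := (hpp.coprime_iff_not_dvd).1 hn.coprime_mul_right
    have hm0 : 0 < m := Nat.pos_of_ne_zero (right_ne_zero_of_mul hn0)
    have hlt : m < p * m := lt_mul_of_one_lt_left hm0 hpp.one_lt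
    have hmN : m.Coprime N := hn.coprime_mul_left
    obtain ⟨a, ha⟩ := hp p hpp hpN
    obtain ⟨b, hb⟩ := ih m hlt hmN
    have h := qCoeff_prime_mul hf hpp m
    rw [mul_comm m p] at h
    by_cases hd : p ∣ m
    · obtain ⟨c, hc⟩ := ih (m / p) ((Nat.div_le_self m p).trans_lt hlt)
        (hmN.coprime_dvd_left (Nat.div_dvd_of_dvd hd))
      rw [if_pos ⟨hpN, hd⟩, ha, hb, hc] at h
      exact ⟨a * b - p * c, by push_cast; linear_combination -h⟩
    · rw [if_neg fun h => hd h.2, ha, hb, add_zero] at h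
      exact ⟨a * b, by push_cast; linear_combination -h⟩

/-- A semistable modular model has a mod `3` eigen-expansion of cube-free level. -/
theorem hasModThreeEigenExpansion_of_exactConductor {W : WeierstrassCurve ℤ}
    (h : Mlc1IsModularModelOfExactConductorLevel W) : HasModThreeEigenExpansion W := by
  classical
  obtain ⟨N, hN, hsq, hiff, f, hf, hmod⟩ := h
  have : NeZero N := ⟨hN.ne'⟩
  have hgood : ∀ p : ℕ, p.Prime → ¬ p ∣ N → qCoeff ⇑f p = (W.apOfModel p : ℂ) :=
    fun p hp hpN => hmod p hp (fun hd => hpN ((hiff p hp).2 hd)) hpN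
  obtain ⟨L, hL, G, hG⟩ := exists_remove_primes hf N.primeFactors subset_rfl
  rw [Nat.prod_primeFactors_of_squarefree hsq] at hL
  subst hL
  have : NeZero (N * N) := ⟨mul_ne_zero hN.ne' hN.ne'⟩
  have hcop : ∀ n, (∃ q ∈ N.primeFactors, q ∣ n) ↔ ¬ n.Coprime N := fun n => by
    rw [Nat.Prime.not_coprime_iff_dvd]
    exact ⟨fun ⟨q, hq, hd⟩ => ⟨q, (Nat.mem_primeFactors.1 hq).1, hd,
      (Nat.mem_primeFactors.1 hq).2.1⟩,
      fun ⟨q, hq, hd, hqN⟩ => ⟨q, Nat.mem_primeFactors.2 ⟨hq, hqN, hN.ne'⟩, hd⟩⟩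
  have hint : ∀ n, ∃ a : ℤ, qCoeff ⇑G n = (a : ℂ) := fun n => by
    rw [hG, if_congr (hcop n) rfl rfl, ite_not]
    split_ifs with h
    · exact qCoeff_mem_int hf (fun p hp hpN => ⟨_, hgood p hp hpN⟩) n h
    · exact ⟨0, by simp⟩
  choose m hm using hint
  have hval : ∀ n, (m n : ℂ) = if n.Coprime N then qCoeff ⇑f n else 0 := fun n => by
    rw [← hm, hG, if_congr (hcop n) rfl rfl, ite_not]
  have hdvd : ∀ ℓ : ℕ, ℓ.Prime → (ℓ ∣ N * N ↔ ℓ ∣ N) := fun ℓ hℓ => by
    rw [hℓ.dvd_mul, or_self]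
  refine ⟨N * N, inferInstance, fun n => (m n : ZMod 3), G, fun q hq _ hd => ?_, ?_, ⟨?_, ?_⟩,
    fun n => ⟨m n, hm n, rfl⟩, fun ℓ hℓ _ hℓN _ => ?_⟩
  · have h2 := (hq.pow_dvd_iff_le_factorization (mul_ne_zero hN.ne' hN.ne')).1 hd
    rw [Nat.factorization_mul hN.ne' hN.ne', Finsupp.add_apply] at h2
    have := hsq.natFactorization_le_one q
    omega
  · have h0 : (m 0 : ℂ) = 0 := by
      rw [hval]
      simp [qCoeff_at_zero]
    simp [Int.cast_eq_zero.1 h0]
  · have h1 : (m 1 : ℂ) = 1 := by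
      rw [hval, if_pos (Nat.coprime_one_left N), hf.qCoeff_one]
    simp [Int.cast_eq_one.1 h1]
  · intro ℓ hℓ n
    by_cases hℓN : ℓ ∣ N
    · have hz : ∀ k, m (ℓ * k) = 0 := fun k => by
        have e : (m (ℓ * k) : ℂ) = 0 := by
          rw [hval, if_neg]
          exact fun hc => hℓ.coprime_iff_not_dvd.1 hc.coprime_mul_right hℓN
        exact_mod_cast e
      have h1 := hz 1
      rw [mul_one] at h1
      simp [(hdvd ℓ hℓ).2 hℓN, hz n, h1]
    · have key : (m (ℓ * n) : ℂ) + (ℓ : ℂ) * (if ℓ ∣ n then (m (n / ℓ) : ℂ) else 0) =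
          (m ℓ : ℂ) * m n := by
        have hc : ℓ.Coprime N := hℓ.coprime_iff_not_dvd.2 hℓN
        simp only [hval, if_pos hc]
        by_cases hn : n.Coprime N
        · rw [if_pos hn, if_pos (hc.mul_left hn), qCoeff_prime_mul hf hℓ, mul_comm ℓ n]
          by_cases hd : ℓ ∣ n
          · simp [hd, hℓN, hn.coprime_dvd_left (Nat.div_dvd_of_dvd hd)]
          · simp [hd]
        · rw [if_neg hn, if_neg fun h => hn h.coprime_mul_left]
          by_cases hd : ℓ ∣ n
          · obtain ⟨k, rfl⟩ := hd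
            rw [if_pos (dvd_mul_right ℓ k), Nat.mul_div_cancel_left _ hℓ.pos,
              if_neg fun h => hn (hc.mul_left h)]
            ring
          · rw [if_neg hd]
            ring
      have key' : m (ℓ * n) + (ℓ : ℤ) * (if ℓ ∣ n then m (n / ℓ) else 0) = m ℓ * m n := by
        split_ifs at key ⊢ <;> exact_mod_cast key
      simp only [(hdvd ℓ hℓ), if_neg hℓN]
      have := congrArg (fun z : ℤ => (z : ZMod 3)) key'
      split_ifs at this ⊢ <;> simpa using this
  · have hℓN' : ¬ ℓ ∣ N := fun h => hℓN ((hdvd ℓ hℓ).2 h)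
    have e : (m ℓ : ℂ) = (W.apOfModel ℓ : ℂ) := by
      rw [hval, if_pos (hℓ.coprime_iff_not_dvd.2 hℓN'), hgood ℓ hℓ hℓN']
    simp only [Int.cast_inj.1 e]

end Fermat.Agent.LTReduce

end
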